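/-
S25 ATLAS/DIV leaf GoodMem, sub-leaf GM5 (helper6408): cohomological tools.
* Nakayama: a finite module with vanishing fibre at a field valued point is killed by an element
  which is non-zero at that point;
* `H¹` of base changes of a line bundle on `𝒞.chart R`;
* when `H¹ = 0`: `H⁰` of every base change is generated by the image of `H⁰`;
* factorisation of base change data through a localisation `R → R[1/a]`.
-/
import Fermat.Agent.S25.ATLAS.DIV.GoodMem.GM5.Alg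
import Fermat.Agent.S25.Lib.BCRel.Coh2411
import Fermat.Agent.S25.Lib.Coh.Chart4030
import Fermat.Agent.S25.Lib.Chart.Facts3648

set_option autoImplicit false
set_option linter.style.haveILetI false

universe u

namespace Fermat.Agent.S25.ATLAS.DIV.GoodMem.GM5

open scoped TensorProduct

open GluedModule H2890 HC2928

/-- Nakayama at a field valued point. -/
theorem exists_ne_zero_forall_smul_eq_zero {R : Type*} [CommRing R] (N : Type*) [AddCommGroup N]
    [Module R N] [Module.Finite R N] (κ : Type*) [Field κ] [Algebra R κ]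
    (h : Subsingleton (κ ⊗[R] N)) : ∃ a : R, algebraMap R κ a ≠ 0 ∧ ∀ x : N, a • x = 0 := by
  haveI hp : (RingHom.ker (algebraMap R κ)).IsPrime := RingHom.ker_isPrime _
  have h1 := (Lib.Coh.A2x1428.subsingleton_tensor_field_iff N κ
    (RingHom.ker (algebraMap R κ)) rfl).1 h
  obtain ⟨r, hr, hr0⟩ := Lib.Coh.A2x1428.exists_notMem_forall_smul_eq_zero N
    (⟨RingHom.ker (algebraMap R κ), hp⟩ : PrimeSpectrum R) h1
  exact ⟨r, fun h0 => hr (RingHom.mem_ker.2 h0), hr0⟩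

section chart

variable {k : Type u} [Field k] (𝒞 : CurveData k) {R R' : Type u} [CommRing R] [Algebra k R]
  [CommRing R'] [Algebra k R']

/-- If `a` kills `H¹(Q)` and becomes a unit in `R'`, then `H¹` of the base change vanishes. -/
theorem subsingleton_H1_of_smul_eq_zero (φ : R →ₐ[k] R') {Q : GluedModule (𝒞.chart R)}
    {M' : GluedModule (𝒞.chart R')} (D : BaseChangeData (𝒞.chartHom φ) Q M') (a : R)
    (ha : ∀ x : Q.H1, a • x = 0) (hu : IsUnit (φ a)) : Subsingleton M'.H1 := by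
  letI : Algebra R R' := (φ : R →+* R').toAlgebra
  have e := Lib.BCRel.tensorEquivH1 (Ψ := 𝒞.chartHom φ) (Lib.BCRel.chartHom_isCocart 𝒞 φ) D
  have hsub : Subsingleton (R' ⊗[R] Q.H1) := by
    refine ⟨fun x y => ?_⟩
    suffices h : ∀ z : R' ⊗[R] Q.H1, z = 0 by rw [h x, h y]
    intro z
    induction z using TensorProduct.induction_on with
    | zero => rfl
    | tmul r' x =>
      obtain ⟨v, hv⟩ := hu.exists_left_inv
      have h1 : r' ⊗ₜ[R] x = (r' * v) ⊗ₜ[R] (a • x) := by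
        rw [TensorProduct.tmul_smul, TensorProduct.smul_tmul', Algebra.smul_def]
        change r' ⊗ₜ[R] x = (φ a * (r' * v)) ⊗ₜ[R] x
        congr 1
        calc r' = r' * (v * φ a) := by rw [hv, mul_one]
          _ = φ a * (r' * v) := by ring
      rw [h1, ha, TensorProduct.tmul_zero]
    | add x y hx hy => rw [hx, hy, add_zero]
  exact e.symm.toEquiv.subsingleton

variable [IsAlgClosed k]

/-- (F) + Nakayama: if `H¹` of a fibre vanishes, some `a`, non-zero at that fibre, kills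
`H¹(Q)`. -/
theorem exists_ne_zero_smul_H1_eq_zero {Q : GluedModule (𝒞.chart R)} (hQ : Q.IsLineBundle)
    (κ : Type u) [Field κ] [Algebra k κ] (φ₀ : R →ₐ[k] κ) (M₀ : GluedModule (𝒞.chart κ))
    (D₀ : BaseChangeData (𝒞.chartHom φ₀) Q M₀) (h : Subsingleton M₀.H1) :
    ∃ a : R, φ₀ a ≠ 0 ∧ ∀ x : Q.H1, a • x = 0 := by
  letI : Algebra R κ := (φ₀ : R →+* κ).toAlgebra
  haveI := Lib.Coh.h1_finite 𝒞 Q hQ
  have e := Lib.BCRel.tensorEquivH1 (Ψ := 𝒞.chartHom φ₀) (Lib.BCRel.chartHom_isCocart 𝒞 φ₀) D₀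
  have hsub : Subsingleton (κ ⊗[R] Q.H1) := e.toEquiv.subsingleton
  exact exists_ne_zero_forall_smul_eq_zero Q.H1 κ hsub

omit [IsAlgClosed k] in
/-- The comparison map `R' ⊗ H⁰(Q) → M'₁ × M'₂` is injective when `H¹(Q) = 0`. -/
theorem h0Map_injective_of_surjective (φ : R →ₐ[k] R') {Q : GluedModule (𝒞.chart R)}
    (hQ : Q.IsLineBundle) (hd : Function.Surjective Q.d) {M' : GluedModule (𝒞.chart R')}
    (D : BaseChangeData (𝒞.chartHom φ) Q M') :
    letI : Algebra R R' := (φ : R →+* R').toAlgebra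
    Function.Injective (Lib.BCRel.h0Map (Ψ := 𝒞.chartHom φ)
      (Lib.BCRel.chartHom_isCocart 𝒞 φ) D) := by
  letI : Algebra R R' := (φ : R →+* R').toAlgebra
  haveI := (Lib.Coh.projective_pieces 𝒞 Q hQ).2.2
  exact (Lib.BCRel.tensorEquivProd (Ψ := 𝒞.chartHom φ)
    (Lib.BCRel.chartHom_isCocart 𝒞 φ) D).injective.comp
    (Lib.Coh.A2x1428.baseChange_subtype_ker_injective Q.d R' hd)

omit [IsAlgClosed k] in
/-- The comparison map `R' ⊗ H⁰(Q) → M'₁ × M'₂` is onto `H⁰(M')` when `H¹(Q) = 0`. -/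
theorem exists_h0Map_eq_of_surjective (φ : R →ₐ[k] R') {Q : GluedModule (𝒞.chart R)}
    (hQ : Q.IsLineBundle) (hd : Function.Surjective Q.d) {M' : GluedModule (𝒞.chart R')}
    (D : BaseChangeData (𝒞.chartHom φ) Q M') (y : M'.N₁ × M'.N₂) (hy : y ∈ M'.H0) :
    letI : Algebra R R' := (φ : R →+* R').toAlgebra
    ∃ z : R' ⊗[R] Q.H0, Lib.BCRel.h0Map (Ψ := 𝒞.chartHom φ)
      (Lib.BCRel.chartHom_isCocart 𝒞 φ) D z = y := by
  letI : Algebra R R' := (φ : R →+* R').toAlgebra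
  haveI := (Lib.Coh.projective_pieces 𝒞 Q hQ).2.2
  have hΨ := Lib.BCRel.chartHom_isCocart 𝒞 φ
  set t₀ := (Lib.BCRel.tensorEquivProd (Ψ := 𝒞.chartHom φ) hΨ D).symm y with ht₀
  have h2 : Lib.BCRel.tensorEquiv₁₂ (Ψ := 𝒞.chartHom φ) hΨ D (Q.d.baseChange R' t₀) = 0 := by
    rw [Lib.BCRel.tensorEquiv₁₂_baseChange_d, ht₀, LinearEquiv.apply_symm_apply]
    exact hy
  have h3 : Q.d.baseChange R' t₀ = 0 := by
    simpa using h2
  have h4 : t₀ ∈ LinearMap.ker (Q.d.baseChange R') := h3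
  rw [Lib.Coh.A2x1428.ker_baseChange_eq_range Q.d R' hd] at h4
  obtain ⟨z, hz⟩ := h4
  refine ⟨z, ?_⟩
  change Lib.BCRel.tensorEquivProd (Ψ := 𝒞.chartHom φ) hΨ D
    ((LinearMap.ker Q.d).subtype.baseChange R' z) = y
  rw [hz, ht₀, LinearEquiv.apply_symm_apply]

omit [IsAlgClosed k] in
/-- When `H¹(Q) = 0`, `H⁰` of every base change is generated by the image of `H⁰(Q)`. -/
theorem mem_span_range_of_mem_H0 (φ : R →ₐ[k] R') {Q : GluedModule (𝒞.chart R)}
    (hQ : Q.IsLineBundle) (hd : Function.Surjective Q.d) {M' : GluedModule (𝒞.chart R')}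
    (D : BaseChangeData (𝒞.chartHom φ) Q M') (y : M'.N₁ × M'.N₂) (hy : y ∈ M'.H0) :
    y ∈ Submodule.span R' (Set.range fun x : Q.H0 =>
      ((D.j₁ (x : Q.N₁ × Q.N₂).1, D.j₂ (x : Q.N₁ × Q.N₂).2) : M'.N₁ × M'.N₂)) := by
  letI : Algebra R R' := (φ : R →+* R').toAlgebra
  have key : ∀ z : R' ⊗[R] Q.H0, Lib.BCRel.h0Map (Ψ := 𝒞.chartHom φ)
      (Lib.BCRel.chartHom_isCocart 𝒞 φ) D z ∈ Submodule.span R' (Set.range fun x : Q.H0 =>
        ((D.j₁ (x : Q.N₁ × Q.N₂).1, D.j₂ (x : Q.N₁ × Q.N₂).2) : M'.N₁ × M'.N₂)) := by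
    intro z
    induction z using TensorProduct.induction_on with
    | zero =>
      rw [map_zero]
      exact Submodule.zero_mem _
    | tmul r' x =>
      rw [Lib.BCRel.h0Map_tmul]
      exact Submodule.smul_mem _ _ (Submodule.subset_span ⟨x, rfl⟩)
    | add x y hx hy =>
      rw [map_add]
      exact Submodule.add_mem _ hx hy
  obtain ⟨z, rfl⟩ := exists_h0Map_eq_of_surjective 𝒞 φ hQ hd D y hy
  exact key z

/-- (CB1) + Nakayama: if `H¹(Q) = 0` and `H⁰` of a fibre is generated by the image of `σ`, then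
some `a`, non-zero at that fibre, multiplies `H⁰(Q)` into `R σ`. -/
theorem exists_ne_zero_smul_H0_mem_span {Q : GluedModule (𝒞.chart R)} (hQ : Q.IsLineBundle)
    (h1 : Subsingleton Q.H1) (σ : Q.N₁ × Q.N₂) (hσ : σ ∈ Q.H0)
    (κ : Type u) [Field κ] [Algebra k κ] (φ₀ : R →ₐ[k] κ) (M₀ : GluedModule (𝒞.chart κ))
    (D₀ : BaseChangeData (𝒞.chartHom φ₀) Q M₀)
    (hgen : ∀ t : M₀.N₁ × M₀.N₂, t ∈ M₀.H0 → ∃ r : κ, t = r • (D₀.j₁ σ.1, D₀.j₂ σ.2)) :
    ∃ a : R, φ₀ a ≠ 0 ∧ ∀ x : Q.N₁ × Q.N₂, x ∈ Q.H0 → a • x ∈ Submodule.span R {σ} := by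
  letI : Algebra R κ := (φ₀ : R →+* κ).toAlgebra
  have hd := Lib.Coh.d_surjective_of_subsingleton_H1 Q h1
  haveI := Lib.Coh.h0_finite 𝒞 Q hQ h1
  have hΨ := Lib.BCRel.chartHom_isCocart 𝒞 φ₀
  set σ' : Q.H0 := ⟨σ, hσ⟩ with hσ'
  set W : Submodule R Q.H0 := Submodule.span R {σ'} with hW
  have hsub : Subsingleton (κ ⊗[R] (Q.H0 ⧸ W)) := by
    refine ⟨fun x y => ?_⟩
    suffices h : ∀ z : κ ⊗[R] (Q.H0 ⧸ W), z = 0 by rw [h x, h y]
    intro z
    induction z using TensorProduct.induction_on with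
    | zero => rfl
    | tmul c x =>
      induction x using Submodule.Quotient.induction_on with
      | _ x =>
        obtain ⟨r, hr⟩ := hgen _ (Lib.BCRel.h0Map_mem (Ψ := 𝒞.chartHom φ₀) hΨ D₀ (c ⊗ₜ[R] x))
        have h2 : Lib.BCRel.h0Map (Ψ := 𝒞.chartHom φ₀) hΨ D₀ (c ⊗ₜ[R] x) =
            Lib.BCRel.h0Map (Ψ := 𝒞.chartHom φ₀) hΨ D₀ (r ⊗ₜ[R] σ') := by
          rw [hr, Lib.BCRel.h0Map_tmul]
          rfl
        have h3 : c ⊗ₜ[R] x = r ⊗ₜ[R] σ' :=
          h0Map_injective_of_surjective 𝒞 φ₀ hQ hd D₀ h2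
        have h4 := congrArg (W.mkQ.baseChange κ) h3
        rw [LinearMap.baseChange_tmul, LinearMap.baseChange_tmul] at h4
        have h5 : W.mkQ σ' = 0 := by
          rw [Submodule.mkQ_apply, Submodule.Quotient.mk_eq_zero]
          exact Submodule.mem_span_singleton_self σ'
        rw [h5, TensorProduct.tmul_zero] at h4
        exact h4
    | add x y hx hy => rw [hx, hy, add_zero]
  obtain ⟨a, ha, ha0⟩ := exists_ne_zero_forall_smul_eq_zero (Q.H0 ⧸ W) κ hsub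
  refine ⟨a, ha, fun x hx => ?_⟩
  have h6 := ha0 (W.mkQ ⟨x, hx⟩)
  rw [← map_smul, Submodule.mkQ_apply, Submodule.Quotient.mk_eq_zero, hW,
    Submodule.mem_span_singleton] at h6
  obtain ⟨c, hc⟩ := h6
  rw [Submodule.mem_span_singleton]
  exact ⟨c, congrArg Subtype.val hc⟩

end chart

end Fermat.Agent.S25.ATLAS.DIV.GoodMem.GM5
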