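/-
S25 ATLAS/DIV leaf GoodMem, sub-leaf GM5 (helper6408): openness of `IsCan` for a given section.
* `exists_baseChangeData_away`: base change data to an `R`-algebra in which `a` is invertible
  factor through the base change to `R[1/a]`;
* `spread_isCan_of_h1`: the statement when `H¹(Q) = 0`;
* `spread_isCan'`: the general statement (= sub-leaf GM5).
-/
import Fermat.Agent.S25.ATLAS.DIV.GoodMem.GM5.Coh

set_option autoImplicit false
set_option linter.style.haveILetI false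

universe u

namespace Fermat.Agent.S25.ATLAS.DIV.GoodMem.GM5

open scoped TensorProduct

open GluedModule H2890 HC2928

variable {k : Type u} [Field k] (𝒞 : CurveData k) {R R' : Type u} [CommRing R] [Algebra k R]
  [CommRing R'] [Algebra k R']

/-- Base change data to an `R`-algebra in which `a` is invertible factor through the base change
to `R[1/a]`. -/
theorem exists_baseChangeData_away {Q : GluedModule (𝒞.chart R)} (a : R)
    (Q₁ : GluedModule (𝒞.chart (Localization.Away a)))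
    (D₁ : BaseChangeData (𝒞.chartHom (IsScalarTower.toAlgHom k R (Localization.Away a))) Q Q₁)
    (φ : R →ₐ[k] R') (hu : IsUnit (φ a)) (M' : GluedModule (𝒞.chart R'))
    (D : BaseChangeData (𝒞.chartHom φ) Q M') :
    ∃ (φ' : Localization.Away a →ₐ[k] R') (D' : BaseChangeData (𝒞.chartHom φ') Q₁ M'),
      (∀ x : R, φ' (algebraMap R (Localization.Away a) x) = φ x) ∧
      (∀ n, D'.j₁ (D₁.j₁ n) = D.j₁ n) ∧ (∀ n, D'.j₂ (D₁.j₂ n) = D.j₂ n) := by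
  have hloc : ∀ x : R, (IsLocalization.Away.liftAlgHom a (f := φ) hu :
      Localization.Away a →ₐ[k] R') (algebraMap R (Localization.Away a) x) = φ x := fun x =>
    IsLocalization.Away.lift_eq a hu x
  have hcomp : (IsLocalization.Away.liftAlgHom a (f := φ) hu : Localization.Away a →ₐ[k] R').comp
      (IsScalarTower.toAlgHom k R (Localization.Away a)) = φ := AlgHom.ext hloc
  obtain ⟨e, he₁, he₂⟩ := exists_iso_of_baseChangeData
    (BaseChangeData.comp (𝒞.chartHom φ)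
      (fun b => by rw [← Lib.Chart.chartHom_comp_ψ₁, hcomp])
      (fun b => by rw [← Lib.Chart.chartHom_comp_ψ₂, hcomp])
      (fun b => by rw [← Lib.Chart.chartHom_comp_ψ₁₂, hcomp]) D₁
      (baseChangeData (𝒞.chartHom (IsLocalization.Away.liftAlgHom a (f := φ) hu :
        Localization.Away a →ₐ[k] R')) Q₁)) D
  exact ⟨_, (baseChangeData (𝒞.chartHom (IsLocalization.Away.liftAlgHom a (f := φ) hu :
    Localization.Away a →ₐ[k] R')) Q₁).transTarget e, hloc, he₁, he₂⟩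

variable [IsAlgClosed k]

/-- Openness of `IsCan` for a given section, when `H¹(Q) = 0`. -/
theorem spread_isCan_of_h1 {Q : GluedModule (𝒞.chart R)} (hQ : Q.IsLineBundle)
    (h1 : Subsingleton Q.H1) (σ : Q.N₁ × Q.N₂) (hσ : σ ∈ Q.H0)
    (hσaway : Submodule.span (𝒞.chart R).B₂ {σ.2} ⊔
      (Ideal.span {(𝒞.chart R).g}) • (⊤ : Submodule (𝒞.chart R).B₂ Q.N₂) = ⊤)
    (κ : Type u) [Field κ] [Algebra k κ] (φ₀ : R →ₐ[k] κ)
    (M₀ : GluedModule (𝒞.chart κ)) (D₀ : BaseChangeData (𝒞.chartHom φ₀) Q M₀)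
    (h₀ : IsCan 𝒞 M₀ (D₀.j₁ σ.1, D₀.j₂ σ.2)) :
    ∃ a : R, φ₀ a ≠ 0 ∧ ∀ (R' : Type u) [CommRing R'] [Algebra k R'] (φ : R →ₐ[k] R')
      (M' : GluedModule (𝒞.chart R')) (D : BaseChangeData (𝒞.chartHom φ) Q M'),
      IsUnit (φ a) → IsCan 𝒞 M' (D.j₁ σ.1, D.j₂ σ.2) := by
  have hd := Lib.Coh.d_surjective_of_subsingleton_H1 Q h1
  haveI inv₁ := hQ.inv₁
  have hM₀ : M₀.IsLineBundle := IsBC.isLineBundle ⟨D₀⟩ hQ
  haveI inv₀ := hM₀.inv₁
  -- the element for the `ε`-condition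
  have hz : zeroIdeal (𝒞.chart κ).B₁ (D₀.j₁ σ.1) ⊔
      RingHom.ker (𝒞.epsR κ : (𝒞.chart κ).B₁ →+* κ) = ⊤ :=
    zeroIdeal_sup_eq_top_of_span _ _ h₀.eps
  rw [H2930.zeroIdeal_j₁ D₀ σ.1] at hz
  obtain ⟨c, hc, hc0⟩ : ∃ c ∈ zeroIdeal (𝒞.chart R).B₁ σ.1, φ₀ (𝒞.epsR R c) ≠ 0 := by
    by_contra hcon
    push_neg at hcon
    have hle : (zeroIdeal (𝒞.chart R).B₁ σ.1).map (𝒞.chartHom φ₀).ψ₁ ≤
        RingHom.ker (𝒞.epsR κ : (𝒞.chart κ).B₁ →+* κ) := by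
      rw [Ideal.map_le_iff_le_comap]
      intro c hc
      rw [Ideal.mem_comap, RingHom.mem_ker]
      change 𝒞.epsR κ ((𝒞.chartHom φ₀).ψ₁ c) = 0
      rw [Lib.Rigid.epsR_chartHom]
      exact hcon c hc
    rw [sup_eq_right.2 hle] at hz
    have h1' : (1 : (𝒞.chart κ).B₁) ∈ RingHom.ker (𝒞.epsR κ : (𝒞.chart κ).B₁ →+* κ) := by
      rw [hz]
      trivial
    rw [RingHom.mem_ker] at h1'
    have h2' : 𝒞.epsR κ (1 : (𝒞.chart κ).B₁) = 0 := h1'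
    rw [map_one] at h2'
    exact one_ne_zero h2'
  -- the element for `gen`
  obtain ⟨a₂, ha₂, Ha₂⟩ := exists_ne_zero_smul_H0_mem_span 𝒞 hQ h1 σ hσ κ φ₀ M₀ D₀
    (fun t ht => (h₀.gen t ht).exists)
  refine ⟨𝒞.epsR R c * a₂, ?_, ?_⟩
  · rw [map_mul]
    exact mul_ne_zero hc0 ha₂
  intro R' _ _ φ M' D hu
  rw [map_mul] at hu
  have hu1 : IsUnit (φ (𝒞.epsR R c)) := isUnit_of_mul_isUnit_left hu
  have hu2 : IsUnit (φ a₂) := isUnit_of_mul_isUnit_right hu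
  have hM' : M'.IsLineBundle := IsBC.isLineBundle ⟨D⟩ hQ
  haveI inv' := hM'.inv₁
  have heps : Submodule.span (𝒞.chart R').B₁ {D.j₁ σ.1} ⊔
      (RingHom.ker (𝒞.epsR R' : (𝒞.chart R').B₁ →+* R')) •
        (⊤ : Submodule (𝒞.chart R').B₁ M'.N₁) = ⊤ := by
    refine eps_of_isUnit 𝒞 (D.j₁ σ.1) ((𝒞.chartHom φ).ψ₁ c) ?_ ?_
    · rw [H2930.zeroIdeal_j₁ D σ.1]
      exact Ideal.mem_map_of_mem _ hc
    · rw [Lib.Rigid.epsR_chartHom]
      exact hu1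
  refine ⟨H2930.mem_H0_of_baseChangeData D σ hσ,
    subsingleton_H1_of_smul_eq_zero 𝒞 φ D 1 (fun x => Subsingleton.elim _ _)
      (by rw [map_one]; exact isUnit_one), ?_, heps, away_of_baseChangeData D σ.2 hσaway⟩
  -- `gen`
  intro t ht
  have hex : ∃ r : R', t = r • ((D.j₁ σ.1, D.j₂ σ.2) : M'.N₁ × M'.N₂) := by
    have hmem := mem_span_range_of_mem_H0 𝒞 φ hQ hd D t ht
    have hle : Submodule.span R' (Set.range fun x : Q.H0 =>
        ((D.j₁ (x : Q.N₁ × Q.N₂).1, D.j₂ (x : Q.N₁ × Q.N₂).2) : M'.N₁ × M'.N₂)) ≤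
        Submodule.span R' {((D.j₁ σ.1, D.j₂ σ.2) : M'.N₁ × M'.N₂)} := by
      rw [Submodule.span_le]
      rintro _ ⟨x, rfl⟩
      obtain ⟨c', hc'⟩ := Submodule.mem_span_singleton.1 (Ha₂ x.1 x.2)
      obtain ⟨v, hv⟩ := hu2.exists_left_inv
      rw [SetLike.mem_coe, Submodule.mem_span_singleton]
      refine ⟨v * φ c', ?_⟩
      have e1 : φ a₂ • D.j₁ (x : Q.N₁ × Q.N₂).1 = φ c' • D.j₁ σ.1 := by
        have := congrArg D.j₁ (congrArg Prod.fst hc').symm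
        rw [Prod.smul_fst, Prod.smul_fst, Lib.BCRel.j₁_smulR, Lib.BCRel.j₁_smulR] at this
        exact this
      have e2 : φ a₂ • D.j₂ (x : Q.N₁ × Q.N₂).2 = φ c' • D.j₂ σ.2 := by
        have := congrArg D.j₂ (congrArg Prod.snd hc').symm
        rw [Prod.smul_snd, Prod.smul_snd, Lib.BCRel.j₂_smulR, Lib.BCRel.j₂_smulR] at this
        exact this
      refine Prod.ext ?_ ?_
      · change (v * φ c') • D.j₁ σ.1 = D.j₁ (x : Q.N₁ × Q.N₂).1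
        rw [mul_smul, ← e1, ← mul_smul, hv, one_smul]
      · change (v * φ c') • D.j₂ σ.2 = D.j₂ (x : Q.N₁ × Q.N₂).2
        rw [mul_smul, ← e2, ← mul_smul, hv, one_smul]
    obtain ⟨r, hr⟩ := Submodule.mem_span_singleton.1 (hle hmem)
    exact ⟨r, hr.symm⟩
  obtain ⟨r, hr⟩ := hex
  refine ⟨r, hr, fun r' hr' => ?_⟩
  have h0 : (r' - r) • D.j₁ σ.1 = 0 := by
    have := congrArg Prod.fst (hr'.symm.trans hr)
    rw [sub_smul, sub_eq_zero]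
    exact this
  exact sub_eq_zero.1 (eq_zero_of_smul_eq_zero_of_eps 𝒞 (D.j₁ σ.1) heps _ h0)

/-- **Sub-leaf GM5**: openness of `IsCan` for a given section. -/
theorem spread_isCan' {Q : GluedModule (𝒞.chart R)} (hQ : Q.IsLineBundle)
    (σ : Q.N₁ × Q.N₂) (hσ : σ ∈ Q.H0)
    (hσaway : Submodule.span (𝒞.chart R).B₂ {σ.2} ⊔
      (Ideal.span {(𝒞.chart R).g}) • (⊤ : Submodule (𝒞.chart R).B₂ Q.N₂) = ⊤)
    (κ : Type u) [Field κ] [Algebra k κ] (φ₀ : R →ₐ[k] κ)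
    (M₀ : GluedModule (𝒞.chart κ)) (D₀ : BaseChangeData (𝒞.chartHom φ₀) Q M₀)
    (h₀ : IsCan 𝒞 M₀ (D₀.j₁ σ.1, D₀.j₂ σ.2)) :
    ∃ a : R, φ₀ a ≠ 0 ∧ ∀ (R' : Type u) [CommRing R'] [Algebra k R'] (φ : R →ₐ[k] R')
      (M' : GluedModule (𝒞.chart R')) (D : BaseChangeData (𝒞.chartHom φ) Q M'),
      IsUnit (φ a) → IsCan 𝒞 M' (D.j₁ σ.1, D.j₂ σ.2) := by
  -- stage 1: kill `H¹`
  obtain ⟨a₁, ha₁, Ha₁⟩ := exists_ne_zero_smul_H1_eq_zero 𝒞 hQ κ φ₀ M₀ D₀ h₀.h1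
  -- the base change to `R[1/a₁]`
  obtain ⟨D₁⟩ : Nonempty (BaseChangeData
      (𝒞.chartHom (IsScalarTower.toAlgHom k R (Localization.Away a₁))) Q
      (Q.baseChange (𝒞.chartHom (IsScalarTower.toAlgHom k R (Localization.Away a₁))))) :=
    ⟨baseChangeData _ Q⟩
  have hQ₁ := IsBC.isLineBundle ⟨D₁⟩ hQ
  have h1Q₁ := subsingleton_H1_of_smul_eq_zero 𝒞 _ D₁ a₁ Ha₁
    (IsLocalization.Away.algebraMap_isUnit a₁)
  have hσ₁ := H2930.mem_H0_of_baseChangeData D₁ σ hσ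
  have hσ₁away := away_of_baseChangeData D₁ σ.2 hσaway
  -- the fibre is a fibre of the base change
  obtain ⟨φ₀', D₀', hφ₀', hD₀'1, hD₀'2⟩ := exists_baseChangeData_away 𝒞 a₁ _ D₁ φ₀
    (isUnit_iff_ne_zero.2 ha₁) M₀ D₀
  have h₀' : IsCan 𝒞 M₀ (D₀'.j₁ (D₁.j₁ σ.1), D₀'.j₂ (D₁.j₂ σ.2)) := by
    rw [hD₀'1, hD₀'2]
    exact h₀
  -- stage 2 over `R[1/a₁]`
  obtain ⟨a₂, ha₂, Ha₂⟩ := spread_isCan_of_h1 𝒞 hQ₁ h1Q₁ (D₁.j₁ σ.1, D₁.j₂ σ.2) hσ₁ hσ₁away κ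
    φ₀' M₀ D₀' h₀'
  obtain ⟨n, r, hr⟩ := IsLocalization.Away.surj a₁ a₂
  have hr' : ∀ {P : Type u} [CommRing P] [Algebra k P] (ψ : R →ₐ[k] P)
      (ψ' : Localization.Away a₁ →ₐ[k] P),
      (∀ x : R, ψ' (algebraMap R (Localization.Away a₁) x) = ψ x) →
      ψ' a₂ * ψ a₁ ^ n = ψ r := by
    intro P _ _ ψ ψ' hψ
    have := congrArg ψ' hr
    rw [map_mul, map_pow, hψ, hψ] at this
    exact this
  refine ⟨a₁ * r, ?_, ?_⟩
  · rw [map_mul, ← hr' φ₀ φ₀' hφ₀']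
    exact mul_ne_zero ha₁ (mul_ne_zero ha₂ (pow_ne_zero n ha₁))
  intro R' _ _ φ M' D hu
  rw [map_mul] at hu
  have hu1 : IsUnit (φ a₁) := isUnit_of_mul_isUnit_left hu
  have hu2 : IsUnit (φ r) := isUnit_of_mul_isUnit_right hu
  obtain ⟨φ', D', hφ', hD'1, hD'2⟩ := exists_baseChangeData_away 𝒞 a₁ _ D₁ φ hu1 M' D
  have hu3 : IsUnit (φ' a₂) := by
    rw [← hr' φ φ' hφ'] at hu2
    exact isUnit_of_mul_isUnit_left hu2
  have := Ha₂ R' φ' M' D' hu3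
  rw [hD'1, hD'2] at this
  exact this

end Fermat.Agent.S25.ATLAS.DIV.GoodMem.GM5
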