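/-
S25 ATLAS/DIV leaf GoodMem, sub-leaf GM5 (helper6408): formal tools.
* zero ideal versus generation modulo an ideal (single ring, invertible module);
* `IsCan` is invariant under isomorphisms;
* two base change data for the same chart map differ by an isomorphism compatible with the `j`s;
* C2 and the `ε`-condition along base change data.
-/
import Fermat.Agent.S25.ATLAS.DIV.Defs
import Fermat.Agent.S25.ATLAS.H2930.DivBC
import Fermat.Agent.S25.Lib.BaseChangeData
import Fermat.Agent.S25.Lib.InvSpan.InvSpan3010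
import Fermat.Agent.S25.Lib.Rigid.Basic48

set_option autoImplicit false

universe u

namespace Fermat.Agent.S25.ATLAS.DIV.GoodMem.GM5

open scoped TensorProduct

open GluedModule H2890 HC2928

/-! ### Single ring -/

section SingleRing

variable {B : Type*} [CommRing B] {M : Type*} [AddCommGroup M] [Module B M]

/-- A functional maps `J • ⊤` into `J`. -/
theorem dual_apply_mem_of_mem_smul_top (J : Ideal B) (φ : Module.Dual B M) {m : M}
    (hm : m ∈ J • (⊤ : Submodule B M)) : φ m ∈ J := by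
  refine Submodule.smul_induction_on hm (fun c hc n _ => ?_) (fun x y hx hy => ?_)
  · rw [map_smul, smul_eq_mul]
    exact Ideal.mul_mem_right _ _ hc
  · rw [map_add]
    exact Ideal.add_mem _ hx hy

variable [Module.Invertible B M]

/-- If the zero ideal of `s` and `𝔟` are comaximal then `s` generates `M` modulo `𝔟`. -/
theorem span_sup_smul_top_eq_top_of_zeroIdeal (s : M) (𝔟 : Ideal B)
    (h : zeroIdeal B s ⊔ 𝔟 = ⊤) :
    Submodule.span B {s} ⊔ 𝔟 • (⊤ : Submodule B M) = ⊤ := by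
  rw [← zeroIdeal_smul_top, ← Submodule.sup_smul, h, Submodule.top_smul]

/-- Conversely, if `s` generates `M` modulo `𝔟` then the zero ideal of `s` and `𝔟` are
comaximal. -/
theorem zeroIdeal_sup_eq_top_of_span (s : M) (𝔟 : Ideal B)
    (h : Submodule.span B {s} ⊔ 𝔟 • (⊤ : Submodule B M) = ⊤) : zeroIdeal B s ⊔ 𝔟 = ⊤ := by
  rw [← zeroIdeal_smul_top, ← Submodule.sup_smul] at h
  obtain ⟨S, hS⟩ := exists_finset_sum_dual_apply_eq_one B M
  rw [Ideal.eq_top_iff_one, ← hS]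
  refine Ideal.sum_mem _ fun i _ => ?_
  exact dual_apply_mem_of_mem_smul_top _ i.1 (by rw [h]; trivial)

end SingleRing

/-! ### Isomorphisms -/

section Iso

variable {k : Type u} [Field k] (𝒞 : CurveData k) {R : Type u} [CommRing R] [Algebra k R]

/-- `IsCan` is invariant under isomorphisms. -/
theorem isCan_of_iso {M M' : GluedModule (𝒞.chart R)} (e : Iso M M') (s : M.N₁ × M.N₂)
    (hs : IsCan 𝒞 M s) : IsCan 𝒞 M' (e.e₁ s.1, e.e₂ s.2) where
  mem := by
    have h := (mem_H0 M s).1 hs.mem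
    rw [mem_H0]
    change M'.ι₁ (e.e₁ s.1) = M'.ι₂ (e.e₂ s.2)
    rw [← e.comm₁, ← e.comm₂, h]
  h1 := by
    have := hs.h1
    exact e.H1.symm.toEquiv.subsingleton
  gen := by
    intro t ht
    have ht' : (e.symm.e₁ t.1, e.symm.e₂ t.2) ∈ M.H0 := by
      have h := (mem_H0 M' t).1 ht
      rw [mem_H0]
      change M.ι₁ (e.symm.e₁ t.1) = M.ι₂ (e.symm.e₂ t.2)
      rw [← e.symm.comm₁, ← e.symm.comm₂, h]
    obtain ⟨r, hr, huniq⟩ := hs.gen _ ht'
    have h1 : e.symm.e₁ t.1 = r • s.1 := congrArg Prod.fst hr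
    have h2 : e.symm.e₂ t.2 = r • s.2 := congrArg Prod.snd hr
    refine ⟨r, ?_, ?_⟩
    · refine Prod.ext ?_ ?_
      · change t.1 = r • e.e₁ s.1
        rw [← algebraMap_smul (𝒞.chart R).B₁ r (e.e₁ s.1), ← map_smul, algebraMap_smul, ← h1]
        exact (e.e₁.apply_symm_apply t.1).symm
      · change t.2 = r • e.e₂ s.2
        rw [← algebraMap_smul (𝒞.chart R).B₂ r (e.e₂ s.2), ← map_smul, algebraMap_smul, ← h2]
        exact (e.e₂.apply_symm_apply t.2).symm
    · intro r' hr'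
      apply huniq
      have h1' : t.1 = r' • e.e₁ s.1 := congrArg Prod.fst hr'
      have h2' : t.2 = r' • e.e₂ s.2 := congrArg Prod.snd hr'
      refine Prod.ext ?_ ?_
      · change e.symm.e₁ t.1 = r' • s.1
        rw [h1', ← algebraMap_smul (𝒞.chart R).B₁ r' (e.e₁ s.1), map_smul, algebraMap_smul]
        exact congrArg (r' • ·) (e.e₁.symm_apply_apply s.1)
      · change e.symm.e₂ t.2 = r' • s.2
        rw [h2', ← algebraMap_smul (𝒞.chart R).B₂ r' (e.e₂ s.2), map_smul, algebraMap_smul]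
        exact congrArg (r' • ·) (e.e₂.symm_apply_apply s.2)
  eps := by
    have h := congrArg (Submodule.map e.e₁.toLinearMap) hs.eps
    rw [Submodule.map_sup, Submodule.map_span, Set.image_singleton, Submodule.map_smul'',
      Submodule.map_top, LinearMap.range_eq_top.2 e.e₁.surjective] at h
    exact h
  away := by
    have h := congrArg (Submodule.map e.e₂.toLinearMap) hs.away
    rw [Submodule.map_sup, Submodule.map_span, Set.image_singleton, Submodule.map_smul'',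
      Submodule.map_top, LinearMap.range_eq_top.2 e.e₂.surjective] at h
    exact h

end Iso

/-! ### Base change data -/

section BCData

variable {R R' : Type u} [CommRing R] [CommRing R'] {φ : R →+* R'} {𝔹 : TwoChart R}
  {𝔹' : TwoChart R'} {Ψ : TwoChart.Hom φ 𝔹 𝔹'} {N : GluedModule 𝔹} {N' N'' : GluedModule 𝔹'}

/-- Two base change data along the same chart map differ by an isomorphism compatible with
the structure maps. -/
theorem exists_iso_of_baseChangeData (D : BaseChangeData Ψ N N') (D' : BaseChangeData Ψ N N'') :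
    ∃ e : Iso N' N'', (∀ n, e.e₁ (D.j₁ n) = D'.j₁ n) ∧ (∀ n, e.e₂ (D.j₂ n) = D'.j₂ n) := by
  refine ⟨D.iso.symm.trans D'.iso, fun n => ?_, fun n => ?_⟩
  · have h1 : D.iso.e₁ (bcMk₁ Ψ N 1 n) = D.j₁ n := by
      rw [BaseChangeData.iso_e₁_bcMk₁, one_smul]
    have h2 : D.iso.symm.e₁ (D.j₁ n) = bcMk₁ Ψ N 1 n := by
      rw [← h1]
      exact D.iso.e₁.symm_apply_apply _
    change D'.iso.e₁ (D.iso.symm.e₁ (D.j₁ n)) = D'.j₁ n
    rw [h2, BaseChangeData.iso_e₁_bcMk₁, one_smul]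
  · have h1 : D.iso.e₂ (bcMk₂ Ψ N 1 n) = D.j₂ n := by
      rw [BaseChangeData.iso_e₂_bcMk₂, one_smul]
    have h2 : D.iso.symm.e₂ (D.j₂ n) = bcMk₂ Ψ N 1 n := by
      rw [← h1]
      exact D.iso.e₂.symm_apply_apply _
    change D'.iso.e₂ (D.iso.symm.e₂ (D.j₂ n)) = D'.j₂ n
    rw [h2, BaseChangeData.iso_e₂_bcMk₂, one_smul]

/-- C2 passes to every base change. -/
theorem away_of_baseChangeData (D : BaseChangeData Ψ N N') (s₂ : N.N₂)
    (h : Submodule.span 𝔹.B₂ {s₂} ⊔ (Ideal.span {𝔹.g}) • (⊤ : Submodule 𝔹.B₂ N.N₂) = ⊤) :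
    Submodule.span 𝔹'.B₂ {D.j₂ s₂} ⊔
      (Ideal.span {𝔹'.g}) • (⊤ : Submodule 𝔹'.B₂ N'.N₂) = ⊤ := by
  have key : Submodule.span 𝔹'.B₂ (Set.range D.j₂) ≤ Submodule.span 𝔹'.B₂ {D.j₂ s₂} ⊔
      (Ideal.span {𝔹'.g}) • (⊤ : Submodule 𝔹'.B₂ N'.N₂) := ?_
  · rw [eq_top_iff]
    exact (Lib.InvSpan.bcData_span₂ D).symm.le.trans key
  rw [Submodule.span_le]
  rintro _ ⟨n, rfl⟩
  have hn : n ∈ Submodule.span 𝔹.B₂ {s₂} ⊔
      (Ideal.span {𝔹.g}) • (⊤ : Submodule 𝔹.B₂ N.N₂) := by rw [h]; trivial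
  obtain ⟨x, hx, y, hy, rfl⟩ := Submodule.mem_sup.1 hn
  rw [SetLike.mem_coe, map_add]
  refine Submodule.add_mem _ (Submodule.mem_sup_left ?_) (Submodule.mem_sup_right ?_)
  · obtain ⟨b, rfl⟩ := Submodule.mem_span_singleton.1 hx
    rw [D.j₂_smul]
    exact Submodule.smul_mem _ _ (Submodule.mem_span_singleton_self _)
  · refine Submodule.smul_induction_on hy (fun c hc m _ => ?_) (fun x y hx hy => ?_)
    · obtain ⟨c', rfl⟩ := Ideal.mem_span_singleton'.1 hc
      rw [D.j₂_smul, map_mul, Ψ.map_g, mul_smul]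
      refine Submodule.smul_mem _ _ ?_
      exact Submodule.smul_mem_smul (Ideal.mem_span_singleton_self _) Submodule.mem_top
    · rw [map_add]
      exact Submodule.add_mem _ hx hy

end BCData

/-! ### The `ε`-condition -/

section Eps

variable {k : Type u} [Field k] (𝒞 : CurveData k) {R : Type u} [CommRing R] [Algebra k R]

/-- The `ε`-condition from an element of the zero ideal which is a unit at `ε`. -/
theorem eps_of_isUnit {M : GluedModule (𝒞.chart R)} [Module.Invertible (𝒞.chart R).B₁ M.N₁]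
    (s₁ : M.N₁) (c : (𝒞.chart R).B₁) (hc : c ∈ zeroIdeal (𝒞.chart R).B₁ s₁)
    (hu : IsUnit (𝒞.epsR R c)) :
    Submodule.span (𝒞.chart R).B₁ {s₁} ⊔
      (RingHom.ker (𝒞.epsR R : (𝒞.chart R).B₁ →+* R)) •
        (⊤ : Submodule (𝒞.chart R).B₁ M.N₁) = ⊤ := by
  apply span_sup_smul_top_eq_top_of_zeroIdeal
  obtain ⟨v, hv⟩ := hu.exists_left_inv
  rw [Ideal.eq_top_iff_one]
  have h1 : (1 : (𝒞.chart R).B₁) = algebraMap R (𝒞.chart R).B₁ v * c +
      (1 - algebraMap R (𝒞.chart R).B₁ v * c) := by ring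
  rw [h1]
  refine Ideal.add_mem _ (Ideal.mem_sup_left (Ideal.mul_mem_left _ _ hc))
    (Ideal.mem_sup_right ?_)
  rw [RingHom.mem_ker]
  change 𝒞.epsR R (1 - algebraMap R (𝒞.chart R).B₁ v * c) = 0
  rw [map_sub, map_one, map_mul, AlgHom.commutes]
  change 1 - v * 𝒞.epsR R c = 0
  rw [hv, sub_self]

/-- Under the `ε`-condition, `r • s₁ = 0` forces `r = 0`. -/
theorem eq_zero_of_smul_eq_zero_of_eps {M : GluedModule (𝒞.chart R)}
    [Module.Invertible (𝒞.chart R).B₁ M.N₁] (s₁ : M.N₁)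
    (heps : Submodule.span (𝒞.chart R).B₁ {s₁} ⊔
      (RingHom.ker (𝒞.epsR R : (𝒞.chart R).B₁ →+* R)) •
        (⊤ : Submodule (𝒞.chart R).B₁ M.N₁) = ⊤) (r : R) (hr : r • s₁ = 0) : r = 0 := by
  have h := zeroIdeal_sup_eq_top_of_span s₁ _ heps
  rw [Ideal.eq_top_iff_one] at h
  obtain ⟨c, hc, m, hm, hcm⟩ := Submodule.mem_sup.1 h
  obtain ⟨ψ, rfl⟩ := mem_zeroIdeal.1 hc
  have h0 : algebraMap R (𝒞.chart R).B₁ r * ψ s₁ = 0 := by
    rw [← smul_eq_mul, ← map_smul, algebraMap_smul, hr, map_zero]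
  have h1 : 𝒞.epsR R (ψ s₁) = 1 := by
    have h2 : 𝒞.epsR R m = 0 := hm
    have h3 := congrArg (𝒞.epsR R) hcm
    rw [map_add, h2, add_zero, map_one] at h3
    exact h3
  have h4 := congrArg (𝒞.epsR R) h0
  rw [map_mul, AlgHom.commutes, h1, mul_one, map_zero] at h4
  exact h4

end Eps

end Fermat.Agent.S25.ATLAS.DIV.GoodMem.GM5
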